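import Fermat.Agent.S56.P3.Spec

/-!
# S56, piece P3 : top glue (sorry-free)

`twElement_of_pieces : SEL → REG → CYC → CYCEXP → DETORD → Fermat.Agent.S56.TWElementStatement`.
-/

set_option autoImplicit false

open Polynomial IsLocalRing

namespace Fermat.Agent.S56.P3

/-- In a field, `DetIsCyclotomic p` forces `p = 0`. -/
theorem natCast_eq_zero_of_detIsCyclotomic {k : Type} [Field k] {p : ℕ}
    {ρbar : ResidualGaloisRep k}
    (hdet : (GaloisRepAdic.ofResidualGaloisRep ρbar).DetIsCyclotomic p) : (p : k) = 0 := by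
  have h := hdet.1
  rwa [IsLocalRing.maximalIdeal_eq_bot, Ideal.mem_bot] at h

/-- (DET) `det ρ̄ σ` is any cyclotomic exponent of `σ` on `μ_p`. -/
theorem det_eq_of_isCycExp {k : Type} [Field k] {p : ℕ} {ρbar : ResidualGaloisRep k}
    (hdet : (GaloisRepAdic.ofResidualGaloisRep ρbar).DetIsCyclotomic p) {σ : GQ} {a : ℕ}
    (h : Fermat.Agent.S56.IsCycExp p σ a) : LinearMap.det (ρbar.ρ σ) = (a : k) := by
  have hp0 : (p : k) = 0 := natCast_eq_zero_of_detIsCyclotomic hdet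
  have h1 := hdet.2 1 σ a (fun μ hμ => h μ (by simpa using hμ))
  have h0 : ((p ^ 1 : ℕ) : k) = 0 := by simpa using hp0
  rw [h0, Ideal.mem_span_singleton, zero_dvd_iff, sub_eq_zero] at h1
  exact h1

/-- `σ` fixing `μ_{p^(n+1)}` has cyclotomic exponent `1` on `μ_p`. -/
theorem isCycExp_one_of_fixesRoots {p n : ℕ} {σ : GQ} (h : FixesRoots p n σ) :
    Fermat.Agent.S56.IsCycExp p σ 1 := by
  intro μ hμ
  rw [pow_one]
  refine h μ ?_
  rw [pow_succ', pow_mul, hμ, one_pow]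

/-- (HYP) the S56 hypotheses give the abstract package `TWHyp`. -/
theorem twHyp_of_hyp {𝒪 : Type} [CommRing 𝒪] [IsDomain 𝒪] [IsDiscreteValuationRing 𝒪]
    {p : ℕ} {ρbar : ResidualGaloisRep (ResidueField 𝒪)} {S Smin : Finset ℕ}
    (H : Fermat.Agent.S56.Hyp 𝒪 p ρbar S Smin) : TWHyp ρbar.ρ p where
  finrank_eq := ρbar.finrank_eq
  char_p := natCast_eq_zero_of_detIsCyclotomic H.hdet
  absIrr := fun W hW => H.habs W hW
  tw := fun K _ _ G hG W hW => H.hTW K G hG W hW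
  split := H.hsplit

/-- a cocycle in the sense of the row interface is a cocycle in End-form. -/
theorem isTwCocycle_of_row {k : Type} [Field k] {p : ℕ} {ρbar : ResidualGaloisRep k}
    (hdet : (GaloisRepAdic.ofResidualGaloisRep ρbar).DetIsCyclotomic p)
    (hexp : ∀ σ : GQ, ∃ a : ℕ, Fermat.Agent.S56.IsCycExp p σ a)
    {c : GQ → Module.End k ρbar.V} (hc : Fermat.Agent.S56.IsTwCocycle ρbar p c) :
    IsTwCocycle ρbar.ρ c where
  trace_zero := hc.trace_eq_zero
  map_mul := by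
    intro g h
    obtain ⟨a, ha⟩ := hexp g
    rw [hc.map_mul g h a ha, twEnd, det_eq_of_isCycExp hdet ha]
    rfl

/-- a coboundary in End-form is a coboundary in the sense of the row interface. -/
theorem row_isTwCoboundary {k : Type} [Field k] {p : ℕ} {ρbar : ResidualGaloisRep k}
    (hdet : (GaloisRepAdic.ofResidualGaloisRep ρbar).DetIsCyclotomic p)
    {c : GQ → Module.End k ρbar.V} (hc : IsTwCoboundary ρbar.ρ c) :
    Fermat.Agent.S56.IsTwCoboundary ρbar p c := by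
  obtain ⟨m, hm, h⟩ := hc
  refine ⟨m, hm, fun σ _ a ha => ?_⟩
  rw [h σ, twEnd, det_eq_of_isCycExp hdet ha]
  rfl

/-- **P3 from its pieces.** -/
theorem twElement_of_pieces (hsel : AbstractTWElementStatement) (hreg : ExistsRegularStatement)
    (hcyc : CycloQuotientStatement) (hexp : CycExpExistsStatement) (hord : DetOrderStatement) :
    Fermat.Agent.S56.TWElementStatement := by
  intro 𝒪 _ _ _ _ _ p ρbar S Smin H
  haveI : Fact p.Prime := ⟨H.hp⟩
  have hT : TWHyp ρbar.ρ p := twHyp_of_hyp H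
  refine ⟨fun c hc hnc n => ?_, fun n => ?_⟩
  · obtain ⟨hN, hC⟩ := hcyc p H.hp2 n
    have hdet1 : ∀ δ ∈ fixRootsSubgroup p n, LinearMap.det (ρbar.ρ δ) = 1 := by
      intro δ hδ
      rw [det_eq_of_isCycExp H.hdet (isCycExp_one_of_fixesRoots hδ), Nat.cast_one]
    obtain ⟨σ, hσΔ, hσreg, hσdet, hσ⟩ :=
      hsel (ResidueField 𝒪) ρbar.V GQ ρbar.ρ p H.hp2 hT (fixRootsSubgroup p n) hC hdet1
        (hord (ResidueField 𝒪) p ρbar H.hdet) c
        (isTwCocycle_of_row H.hdet (hexp p) hc)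
        (fun h => hnc (row_isTwCoboundary H.hdet h))
    refine ⟨σ, hσΔ, hσreg, fun m hm heq => hσ ⟨m, hm, ?_⟩⟩
    rw [twEnd, hσdet, one_smul]
    exact heq
  · obtain ⟨hN, hC⟩ := hcyc p H.hp2 n
    obtain ⟨σ, hσΔ, hσreg⟩ :=
      hreg (ResidueField 𝒪) ρbar.V GQ ρbar.ρ p H.hp2 hT (fixRootsSubgroup p n) hC
    exact ⟨σ, hσΔ, hσreg⟩

end Fermat.Agent.S56.P3
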