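import Mathlib
import Fermat.Prelude.Def_GaloisRep_Residual
import Fermat.Prelude.Def_GaloisRep_LocalConditions

/-!
# S56, piece P3 (finite group theory behind Taylor–Wiles primes) : definitions

Sub-architect: helper306.  Plan: `origin/helper306:coord/S56-P3.md`.

`M = ad⁰ρ̄(1)` is realised CONCRETELY as the trace-zero endomorphisms of `V` with the twisted
adjoint action `g • A = det(ρ g) • (ρ g * A * ρ g⁻¹)` (recall `det ρ̄ = ω`, the mod `p` cyclotomic
character, so the twist by `det` IS the Tate twist).  Cocycles are plain functions `Γ → End V`.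
-/

set_option autoImplicit false

open Polynomial

namespace Fermat.Agent.S56.P3

/-- `Gal(ℚ̄/ℚ)`. -/
abbrev GQ : Type := AlgebraicClosure ℚ ≃ₐ[ℚ] AlgebraicClosure ℚ

section EndForm

variable {k : Type} [Field k] {V : Type} [AddCommGroup V] [Module k V] [Module.Finite k V]
variable {Γ : Type} [Group Γ]

/-- The twisted adjoint action `g • A = det(ρ g) • (ρ g * A * ρ g⁻¹)` on `End V`. -/
noncomputable def twEnd (ρ : Γ →* Module.End k V) (g : Γ) (A : Module.End k V) :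
    Module.End k V :=
  LinearMap.det (ρ g) • (ρ g * A * ρ g⁻¹)

/-- `ψ : Γ → End V` is a 1-cocycle with values in `ad⁰ρ(1)`. -/
structure IsTwCocycle (ρ : Γ →* Module.End k V) (ψ : Γ → Module.End k V) : Prop where
  trace_zero : ∀ g, LinearMap.trace k V (ψ g) = 0
  map_mul : ∀ g h, ψ (g * h) = ψ g + twEnd ρ g (ψ h)

/-- `ψ` is a 1-coboundary with values in `ad⁰ρ(1)`. -/
def IsTwCoboundary (ρ : Γ →* Module.End k V) (ψ : Γ → Module.End k V) : Prop :=
  ∃ m : Module.End k V, LinearMap.trace k V m = 0 ∧ ∀ g, ψ g = twEnd ρ g m - m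

/-- `ρ σ` has two DISTINCT eigenvalues in `k`. -/
def IsRegular (ρ : Γ →* Module.End k V) (σ : Γ) : Prop :=
  ∃ α β : k, α ≠ β ∧ LinearMap.charpoly (ρ σ) = (X - C α) * (X - C β)

/-- `ψ σ ∈ (σ - 1) ad⁰ρ(1)`. -/
def InRange (ρ : Γ →* Module.End k V) (ψ : Γ → Module.End k V) (σ : Γ) : Prop :=
  ∃ m : Module.End k V, LinearMap.trace k V m = 0 ∧ ψ σ = twEnd ρ σ m - m

/-- `σ` is a Taylor–Wiles element for the cocycle `ψ`: `ρ σ` has distinct eigenvalues in `k`,
`det ρ σ = 1`, and `ψ σ ∉ (σ - 1) ad⁰ρ(1)`. -/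
def IsTWElement (ρ : Γ →* Module.End k V) (ψ : Γ → Module.End k V) (σ : Γ) : Prop :=
  IsRegular ρ σ ∧ LinearMap.det (ρ σ) = 1 ∧ ¬ InRange ρ ψ σ

/-- The abstract hypotheses of S56 on `ρ̄` (`p` odd prime, `k` of characteristic `p`):
absolutely irreducible, irreducible on every subgroup of index 2 over every extension field,
all eigenvalues in `k`. -/
structure TWHyp (ρ : Γ →* Module.End k V) (p : ℕ) : Prop where
  finrank_eq : Module.finrank k V = 2
  char_p : (p : k) = 0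
  absIrr : ∀ W : Submodule (AlgebraicClosure k) (TensorProduct k (AlgebraicClosure k) V),
    (∀ g : Γ, ∀ x ∈ W, (ρ g).baseChange (AlgebraicClosure k) x ∈ W) → W = ⊥ ∨ W = ⊤
  tw : ∀ (K : Type) [Field K] [Algebra k K] (G : Subgroup Γ), G.index = 2 →
    ∀ W : Submodule K (TensorProduct k K V),
      (∀ g ∈ G, ∀ x ∈ W, (ρ g).baseChange K x ∈ W) → W = ⊥ ∨ W = ⊤
  split : ∀ g : Γ, ∃ α β : k, LinearMap.charpoly (ρ g) = (X - C α) * (X - C β)

end EndForm

section Galois

/-- `σ` fixes all `p^(n+1)`-th roots of unity (i.e. `σ ∈ G_{ℚ(ζ_{p^(n+1)})}`). -/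
def FixesRoots (p n : ℕ) (σ : GQ) : Prop :=
  ∀ μ : AlgebraicClosure ℚ, μ ^ p ^ (n + 1) = 1 → σ μ = μ

/-- The subgroup `G_{ℚ(ζ_{p^(n+1)})}` of `G_ℚ`. -/
def fixRootsSubgroup (p n : ℕ) : Subgroup GQ where
  carrier := {σ | FixesRoots p n σ}
  mul_mem' := by
    intro a b ha hb μ hμ
    rw [AlgEquiv.mul_apply, hb μ hμ, ha μ hμ]
  one_mem' := fun _ _ => rfl
  inv_mem' := by
    intro a ha μ hμ
    have h := ha μ hμ
    calc a⁻¹ μ = a⁻¹ (a μ) := by rw [h]
      _ = μ := by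
        show a.symm (a μ) = μ
        exact a.symm_apply_apply μ

@[simp] lemma mem_fixRootsSubgroup {p n : ℕ} {σ : GQ} :
    σ ∈ fixRootsSubgroup p n ↔ FixesRoots p n σ := Iff.rfl

end Galois

end Fermat.Agent.S56.P3
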