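import Fermat.Agent.S56.P3.Defs
import Fermat.Agent.S56.Spec

/-!
# S56, piece P3 (`Fermat.Agent.S56.TWElementStatement`) : FROZEN SUB-INTERFACE

Sub-architect: helper306.  Plan + mathematics of every piece: `origin/helper306:coord/S56-P3.md`.
Top glue (PROVED, sorry-free): `Fermat/Agent/S56/P3/Glue.lean`

    twElement_of_pieces : AbstractTWElementStatement → ExistsRegularStatement →
      CycloQuotientStatement → CycExpExistsStatement → DetOrderStatement →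
      Fermat.Agent.S56.TWElementStatement

Every `...Statement : Prop` below is a deliverable: a piece is DONE when some file proves
`theorem <name> : Fermat.Agent.S56.P3.<Name>Statement` (sorry-free, standard axioms).
Glue pieces take the statements they need as hypotheses.
-/

set_option autoImplicit false

open Polynomial

namespace Fermat.Agent.S56.P3

/-! ## Part A : abstract group theory (`Γ` any group, `ρ : Γ →* End V`, `dim V = 2`) -/

/-- (IRR) under `TWHyp`, `ad⁰ρ` is irreducible: a nonzero conjugation-stable subspace of the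
trace-zero endomorphisms contains every trace-zero endomorphism. -/
def Ad0IrreducibleStatement : Prop :=
  ∀ (k : Type) [Field k] (V : Type) [AddCommGroup V] [Module k V] [Module.Finite k V]
    (Γ : Type) [Group Γ] (ρ : Γ →* Module.End k V) (p : ℕ) [Fact p.Prime], p ≠ 2 → TWHyp ρ p →
    ∀ W : Submodule k (Module.End k V), (∀ A ∈ W, LinearMap.trace k V A = 0) →
      (∀ g : Γ, ∀ A ∈ W, ρ g * A * ρ g⁻¹ ∈ W) → W ≠ ⊥ →
      ∀ A : Module.End k V, LinearMap.trace k V A = 0 → A ∈ W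

/-- (SPAN) `ρ|_Δ` is absolutely irreducible for `Δ ⊴ Γ` with cyclic quotient, in Burnside form:
the `k`-span of `ρ(Δ)` is all of `End V`. -/
def SpanDeltaStatement : Prop :=
  ∀ (k : Type) [Field k] (V : Type) [AddCommGroup V] [Module k V] [Module.Finite k V]
    (Γ : Type) [Group Γ] (ρ : Γ →* Module.End k V) (p : ℕ) [Fact p.Prime], p ≠ 2 → TWHyp ρ p →
    ∀ (Δ : Subgroup Γ) [Δ.Normal], IsCyclic (Γ ⧸ Δ) →
      Submodule.span k (Set.range fun δ : Δ => ρ (δ : Γ)) = ⊤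

/-- (REG) `Δ` contains an element with two distinct eigenvalues. -/
def ExistsRegularStatement : Prop :=
  ∀ (k : Type) [Field k] (V : Type) [AddCommGroup V] [Module k V] [Module.Finite k V]
    (Γ : Type) [Group Γ] (ρ : Γ →* Module.End k V) (p : ℕ) [Fact p.Prime], p ≠ 2 → TWHyp ρ p →
    ∀ (Δ : Subgroup Γ) [Δ.Normal], IsCyclic (Γ ⧸ Δ) → ∃ σ ∈ Δ, IsRegular ρ σ

/-- (H1-CORE) the matrix core of `H¹(Gal(F_n/ℚ), ad⁰ρ̄(1)) = 0` (helper726's classification-free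
theorem): `ρ : G →* M₂(k)`, `H ⊴ G` with `det ρ = 1` on `H` and `span ρ(H) = M₂(k)`, some
`det ρ(g) ∉ {1, -1}` if `p = 5`; a twisted trace-zero cocycle vanishing on `H ∩ ker ρ` is a
coboundary. -/
def H1CoreStatement : Prop :=
  ∀ (k : Type) [Field k] [Finite k] (p : ℕ) [Fact p.Prime], p ≠ 2 → (p : k) = 0 →
    ∀ (G : Type) [Group G] (ρ : G →* Matrix (Fin 2) (Fin 2) k) (H : Subgroup G) [H.Normal],
    (∀ h ∈ H, (ρ h).det = 1) → Submodule.span k (Set.range fun h : H => ρ (h : G)) = ⊤ →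
    (p = 5 → ∃ g : G, (ρ g).det ≠ 1 ∧ (ρ g).det ≠ -1) →
    ∀ ψ : G → Matrix (Fin 2) (Fin 2) k, (∀ g, (ψ g).trace = 0) →
      (∀ g h, ψ (g * h) = ψ g + (ρ g).det • (ρ g * ψ h * ρ g⁻¹)) →
      (∀ h ∈ H, ρ h = 1 → ψ h = 0) →
      ∃ m : Matrix (Fin 2) (Fin 2) k, m.trace = 0 ∧
        ∀ g, ψ g = (ρ g).det • (ρ g * m * ρ g⁻¹) - m

/-- (H1) `H¹(Gal(F_n/ℚ), ad⁰ρ̄(1)) = 0`: a cocycle vanishing on `Δ ∩ ker ρ` is a coboundary. -/
def H1VanishStatement : Prop :=
  ∀ (k : Type) [Field k] [Finite k] (V : Type) [AddCommGroup V] [Module k V]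
    [Module.Finite k V] (Γ : Type) [Group Γ] (ρ : Γ →* Module.End k V) (p : ℕ)
    [Fact p.Prime], p ≠ 2 → TWHyp ρ p →
    ∀ (Δ : Subgroup Γ) [Δ.Normal], IsCyclic (Γ ⧸ Δ) → (∀ δ ∈ Δ, LinearMap.det (ρ δ) = 1) →
    (∃ γ : Γ, orderOf (LinearMap.det (ρ γ)) = p - 1) →
    ∀ ψ : Γ → Module.End k V, IsTwCocycle ρ ψ → (∀ δ ∈ Δ, ρ δ = 1 → ψ δ = 0) →
      IsTwCoboundary ρ ψ

/-- (SEL) selection of a Taylor–Wiles element for a non-trivial class. -/
def AbstractTWElementStatement : Prop :=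
  ∀ (k : Type) [Field k] [Finite k] (V : Type) [AddCommGroup V] [Module k V]
    [Module.Finite k V] (Γ : Type) [Group Γ] (ρ : Γ →* Module.End k V) (p : ℕ)
    [Fact p.Prime], p ≠ 2 → TWHyp ρ p →
    ∀ (Δ : Subgroup Γ) [Δ.Normal], IsCyclic (Γ ⧸ Δ) → (∀ δ ∈ Δ, LinearMap.det (ρ δ) = 1) →
    (∃ γ : Γ, orderOf (LinearMap.det (ρ γ)) = p - 1) →
    ∀ ψ : Γ → Module.End k V, IsTwCocycle ρ ψ → ¬ IsTwCoboundary ρ ψ →
      ∃ σ ∈ Δ, IsTWElement ρ ψ σ

/-! ## Part B : arithmetic inputs for `Γ = G_ℚ` -/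

/-- (CYC) `G_{ℚ(ζ_{p^(n+1)})}` is normal in `G_ℚ` with cyclic quotient (`p` odd). -/
def CycloQuotientStatement : Prop :=
  ∀ (p : ℕ) [Fact p.Prime], p ≠ 2 → ∀ n : ℕ,
    ∃ _ : (fixRootsSubgroup p n).Normal, IsCyclic (GQ ⧸ fixRootsSubgroup p n)

/-- (CYCEXP) every `σ ∈ G_ℚ` has a cyclotomic exponent on `μ_p`. -/
def CycExpExistsStatement : Prop :=
  ∀ (p : ℕ) [Fact p.Prime] (σ : GQ), ∃ a : ℕ, Fermat.Agent.S56.IsCycExp p σ a

/-- (DETORD) the mod `p` cyclotomic character is onto `𝔽_p^×`: if `det ρ̄` is cyclotomic, it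
takes a value of exact order `p - 1`. -/
def DetOrderStatement : Prop :=
  ∀ (k : Type) [Field k] (p : ℕ) [Fact p.Prime] (ρbar : ResidualGaloisRep k),
    (GaloisRepAdic.ofResidualGaloisRep ρbar).DetIsCyclotomic p →
      ∃ γ : GQ, orderOf (LinearMap.det (ρbar.ρ γ)) = p - 1

end Fermat.Agent.S56.P3
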